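import Mathlib

/-!
# JAC / B6.4d : smooth over a field implies reduced; smooth implies geometrically reduced

* `isReduced_of_etale_of_isDomain` : an étale algebra over a domain is reduced
  (flat, hence embeds into its generic fibre, which is étale over a field, hence reduced).
* `isReduced_of_isStandardSmooth_of_isDomain`, `isReduced_of_smooth_of_isDomain` : a smooth
  algebra over a domain is reduced (locally étale over a polynomial ring).
* `isReduced_of_smooth_field` : a scheme smooth over `Spec K`, `K` a field, is reduced.
* `geometricallyReduced_of_smooth` : smooth morphisms are geometrically reduced.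
* `geometricallyIntegral_of_smooth_of_geometricallyIrreducible` : smooth + geometrically
  irreducible implies geometrically integral.
-/

set_option autoImplicit false

universe u

open CategoryTheory Limits AlgebraicGeometry TensorProduct

namespace Fermat.Agent.JAC.Prop.SmoothReduced27

theorem isReduced_of_etale_of_isDomain (P A : Type u) [CommRing P] [IsDomain P] [CommRing A]
    [Algebra P A] [Algebra.Etale P A] : IsReduced A := by
  let F := FractionRing P
  have hflat : Module.Flat P A := inferInstance
  have hred : IsReduced (F ⊗[P] A) := Algebra.FormallyUnramified.isReduced_of_field F (F ⊗[P] A)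
  have hinj : Function.Injective (Algebra.TensorProduct.includeRight : A →ₐ[P] F ⊗[P] A) :=
    Algebra.TensorProduct.includeRight_injective (IsFractionRing.injective P F)
  exact isReduced_of_injective _ hinj

theorem isReduced_of_isStandardSmooth_of_isDomain (R A : Type u) [CommRing R] [IsDomain R]
    [CommRing A] [Algebra R A] [Algebra.IsStandardSmooth R A] : IsReduced A := by
  obtain ⟨n, g, -, hg⟩ := RingHom.IsStandardSmooth.exists_etale_mvPolynomial
    (f := algebraMap R A) (by rwa [RingHom.isStandardSmooth_algebraMap])
  algebraize [g]
  exact isReduced_of_etale_of_isDomain (MvPolynomial (Fin n) R) A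

theorem isReduced_of_smooth_of_isDomain (R A : Type u) [CommRing R] [IsDomain R]
    [CommRing A] [Algebra R A] [Algebra.Smooth R A] : IsReduced A := by
  obtain ⟨s, hs, H⟩ := Algebra.Smooth.exists_span_eq_top_isStandardSmooth R A
  refine ⟨fun a ha => ?_⟩
  have : a ∈ (⊥ : Submodule A A) := by
    refine Submodule.mem_of_span_eq_top_of_smul_pow_mem _ s hs a fun r => ?_
    have := H r r.2
    have hred : IsReduced (Localization.Away (r : A)) :=
      isReduced_of_isStandardSmooth_of_isDomain R _
    have h0 : algebraMap A (Localization.Away (r : A)) a = 0 :=
      (ha.map (algebraMap A (Localization.Away (r : A)))).eq_zero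
    rw [IsLocalization.map_eq_zero_iff (Submonoid.powers (r : A))] at h0
    obtain ⟨⟨_, m, rfl⟩, hm⟩ := h0
    exact ⟨m, by simpa using hm⟩
  simpa using this

theorem isReduced_Spec_of_smooth {K : Type u} [Field K] {R : CommRingCat.{u}}
    (φ : CommRingCat.of K ⟶ R) (h : φ.hom.Smooth) : IsReduced (Spec R) := by
  algebraize [φ.hom]
  have : _root_.IsReduced R := isReduced_of_smooth_of_isDomain K R
  infer_instance

set_option backward.isDefEq.respectTransparency false in
theorem isReduced_of_smooth_field {K : Type u} [Field K] {X : Scheme.{u}}
    (f : X ⟶ Spec (.of K)) [Smooth f] : IsReduced X := by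
  have : ∀ i, IsReduced (X.affineCover.X i) := by
    intro i
    obtain ⟨φ, hφ⟩ := Spec.map_surjective (X.affineCover.f i ≫ f)
    have h1 : Smooth (X.affineCover.f i ≫ f) := inferInstance
    rw [← hφ, HasRingHomProperty.Spec_iff (P := @Smooth)] at h1
    exact isReduced_Spec_of_smooth φ h1
  exact IsReduced.of_openCover (X := X) X.affineCover

instance geometricallyReduced_of_smooth {X Y : Scheme.{u}} (f : X ⟶ Y) [Smooth f] :
    GeometricallyReduced f := by
  refine ⟨fun K _ y Z fst snd h => ?_⟩
  have : Smooth snd := MorphismProperty.of_isPullback h ‹Smooth f›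
  exact isReduced_of_smooth_field snd

theorem geometricallyIntegral_of_smooth_of_geometricallyIrreducible {X Y : Scheme.{u}}
    (f : X ⟶ Y) [Smooth f] [GeometricallyIrreducible f] : GeometricallyIntegral f :=
  .of_geometricallyReduced_of_geometricallyIrreducible f

end Fermat.Agent.JAC.Prop.SmoothReduced27
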