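import Mathlib

/-!
# JAC / B6.5 adapters : properties of `π : J ⟶ S` from a jointly surjective family of charts

`j i : U i ⟶ J` open immersions, jointly surjective (e.g. `Repr.AllSchemes10.Atlas.chart` with
`exists_mem_range_chart`).

* `of_charts` : any property local at the source holds for `π` if it holds for all `j i ≫ π`.
* `locallyOfFiniteType_of_charts`, `smooth_of_charts` : affine charts `Spec (R i)` over an affine
  base `Spec k`, in terms of the ring maps `k ⟶ R i`.
-/

set_option autoImplicit false

universe u

open CategoryTheory Limits AlgebraicGeometry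

namespace Fermat.Agent.JAC.Prop.Charts27

section General

variable {S J : Scheme.{u}} (π : J ⟶ S) {ι : Type u} {U : ι → Scheme.{u}} (j : ∀ i, U i ⟶ J)
  [∀ i, IsOpenImmersion (j i)] (hcov : ∀ x : J, ∃ i, x ∈ Set.range (j i))

include hcov in
/-- A property local at the source can be checked on a jointly surjective family of charts. -/
theorem of_charts (P : MorphismProperty Scheme.{u}) [IsZariskiLocalAtSource P]
    (h : ∀ i, P (j i ≫ π)) : P π := by
  let 𝒰 : J.OpenCover := Scheme.Cover.mkOfCovers ι U j
    (fun x => by obtain ⟨i, y, hy⟩ := hcov x; exact ⟨i, y, hy⟩)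
  rw [IsZariskiLocalAtSource.iff_of_openCover (P := P) 𝒰]
  exact h

end General

section Affine

variable {k : CommRingCat.{u}} {J : Scheme.{u}} (π : J ⟶ Spec k) {ι : Type u}
  {R : ι → CommRingCat.{u}} (j : ∀ i, Spec (R i) ⟶ J) [∀ i, IsOpenImmersion (j i)]
  (hcov : ∀ x : J, ∃ i, x ∈ Set.range (j i))
  (φ : ∀ i, k ⟶ R i) (hφ : ∀ i, Spec.map (φ i) = j i ≫ π)

include hcov hφ

set_option backward.isDefEq.respectTransparency false in
/-- `π` is locally of finite type if all chart rings are of finite type over `k`. -/
theorem locallyOfFiniteType_of_charts (h : ∀ i, (φ i).hom.FiniteType) :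
    LocallyOfFiniteType π :=
  of_charts π j hcov @LocallyOfFiniteType fun i => by
    rw [← hφ, HasRingHomProperty.Spec_iff (P := @LocallyOfFiniteType)]
    exact h i

set_option backward.isDefEq.respectTransparency false in
/-- `π` is locally of finite presentation if all chart rings are finitely presented over `k`. -/
theorem locallyOfFinitePresentation_of_charts (h : ∀ i, (φ i).hom.FinitePresentation) :
    LocallyOfFinitePresentation π :=
  of_charts π j hcov @LocallyOfFinitePresentation fun i => by
    rw [← hφ, HasRingHomProperty.Spec_iff (P := @LocallyOfFinitePresentation)]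
    exact h i

set_option backward.isDefEq.respectTransparency false in
/-- `π` is smooth if all chart rings are formally smooth and finitely presented over `k`. -/
theorem smooth_of_charts (h1 : ∀ i, (φ i).hom.FormallySmooth)
    (h2 : ∀ i, (φ i).hom.FinitePresentation) : Smooth π :=
  of_charts π j hcov @Smooth fun i => by
    rw [← hφ, HasRingHomProperty.Spec_iff (P := @Smooth), RingHom.smooth_def]
    exact ⟨h1 i, h2 i⟩

end Affine

end Fermat.Agent.JAC.Prop.Charts27
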