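import Mathlib

/-!
# JAC / B6.2 : smoothness from the functorial infinitesimal lifting property

Let `f : X ⟶ Spec R` be locally of finite presentation.  Assume that for every `R`-algebra `B`
and every square-zero ideal `I ⊆ B`, every `Spec (B ⧸ I)`-point of `X` over `Spec R` lifts to a
`Spec B`-point over `Spec R`.  Then `f` is smooth.

(The lift automatically stays inside any given affine open because `Spec (B ⧸ I) ⟶ Spec B` is
surjective; so the coordinate ring of every affine chart is formally smooth over `R`.)

Intended use (Programme JAC, B6): `X = J`, the lifting property being formal smoothness of the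
functor of degree-0 rigidified line bundles (A6).
-/

set_option autoImplicit false

universe u

open CategoryTheory Limits AlgebraicGeometry CommRingCat

namespace Fermat.Agent.JAC.Prop.FormallySmooth27

variable {R : Type u} [CommRing R] {X : Scheme.{u}} (f : X ⟶ Spec (.of R))

/-- The functorial infinitesimal lifting property of `f : X ⟶ Spec R` (square-zero thickenings of
affine `R`-schemes). -/
def HasInfinitesimalLifting : Prop :=
  ∀ (B : Type u) [CommRing B] [Algebra R B] (I : Ideal B), I ^ 2 = ⊥ →
    ∀ a : Spec (.of (B ⧸ I)) ⟶ X,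
      a ≫ f = Spec.map (CommRingCat.ofHom (algebraMap R (B ⧸ I))) →
      ∃ b : Spec (.of B) ⟶ X, b ≫ f = Spec.map (CommRingCat.ofHom (algebraMap R B)) ∧
        Spec.map (CommRingCat.ofHom (Ideal.Quotient.mk I)) ≫ b = a

/-- `Spec (B ⧸ I) ⟶ Spec B` is surjective on points when `I` is nilpotent (here: square zero). -/
theorem specMap_mk_surjective {B : Type u} [CommRing B] (I : Ideal B) (hI : I ^ 2 = ⊥) :
    Function.Surjective (Spec.map (CommRingCat.ofHom (Ideal.Quotient.mk I))).base := by
  have hle : I ≤ nilradical B := by
    intro x hx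
    refine ⟨2, ?_⟩
    have : x ^ 2 ∈ I ^ 2 := Ideal.pow_mem_pow hx 2
    rw [hI] at this
    simpa using this
  exact (PrimeSpectrum.comap_quotientMk_bijective_of_le_nilradical hle).2

variable {f}

/-- On an affine chart `j : Spec A ⟶ X` the lifting property makes `A` formally smooth over `R`. -/
theorem formallySmooth_of_lifting (H : HasInfinitesimalLifting f) {A : CommRingCat.{u}}
    (j : Spec A ⟶ X) [IsOpenImmersion j] (φ : CommRingCat.of R ⟶ A)
    (hφ : Spec.map φ = j ≫ f) : φ.hom.FormallySmooth := by
  algebraize [φ.hom]
  rw [RingHom.FormallySmooth]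
  refine Algebra.FormallySmooth.of_comp_surjective fun B _ _ I hI gbar => ?_
  -- the `Spec (B ⧸ I)`-point of `X`
  let a : Spec (.of (B ⧸ I)) ⟶ X := Spec.map (CommRingCat.ofHom gbar.toRingHom) ≫ j
  have ha : a ≫ f = Spec.map (CommRingCat.ofHom (algebraMap R (B ⧸ I))) := by
    simp only [a, Category.assoc, ← hφ, ← Spec.map_comp]
    congr 1
    ext r
    exact gbar.commutes r
  obtain ⟨b, hbf, hba⟩ := H B I hI a ha
  -- the lift stays inside the chart
  have hrange : Set.range b.base ⊆ Set.range j.base := by
    rintro _ ⟨y, rfl⟩
    obtain ⟨ybar, rfl⟩ := specMap_mk_surjective I hI y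
    have : b.base ((Spec.map (CommRingCat.ofHom (Ideal.Quotient.mk I))).base ybar) =
        a.base ybar := by
      rw [← hba]; rfl
    rw [this]
    exact ⟨(Spec.map (CommRingCat.ofHom gbar.toRingHom)).base ybar, rfl⟩
  let b' : Spec (.of B) ⟶ Spec A := IsOpenImmersion.lift j b hrange
  have hb' : b' ≫ j = b := IsOpenImmersion.lift_fac j b hrange
  obtain ⟨g', hg'⟩ := Spec.map_surjective b'
  -- `g'` is an `R`-algebra map
  have hgR : φ ≫ g' = CommRingCat.ofHom (algebraMap R B) := by
    apply Spec.map_injective
    rw [Spec.map_comp, hg', hφ, ← Category.assoc, hb', hbf]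
  -- and lifts `gbar`
  have hgbar : g' ≫ CommRingCat.ofHom (Ideal.Quotient.mk I) =
      CommRingCat.ofHom gbar.toRingHom := by
    apply Spec.map_injective
    rw [Spec.map_comp, hg']
    have hmono : Mono j := inferInstance
    rw [← cancel_mono j, Category.assoc, hb', hba]
  refine ⟨{ g'.hom with commutes' := fun r => ?_ }, ?_⟩
  · have := congrArg (fun ψ => ψ.hom r) hgR
    simpa [RingHom.algebraMap_toAlgebra] using this
  · ext x
    have := congrArg (fun ψ => ψ.hom x) hgbar
    simpa using this

set_option backward.isDefEq.respectTransparency false in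
/-- **Smoothness from the infinitesimal lifting property.** -/
theorem smooth_of_lifting [LocallyOfFinitePresentation f] (H : HasInfinitesimalLifting f) :
    Smooth f := by
  rw [IsZariskiLocalAtSource.iff_of_openCover (P := @Smooth) X.affineCover]
  intro i
  obtain ⟨φ, hφ⟩ := Spec.map_surjective (X.affineCover.f i ≫ f)
  rw [← hφ, HasRingHomProperty.Spec_iff (P := @Smooth), RingHom.smooth_def]
  refine ⟨formallySmooth_of_lifting H (X.affineCover.f i) φ hφ, ?_⟩
  have h1 : LocallyOfFinitePresentation (X.affineCover.f i ≫ f) := inferInstance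
  rw [← hφ, HasRingHomProperty.Spec_iff (P := @LocallyOfFinitePresentation)] at h1
  exact h1

end Fermat.Agent.JAC.Prop.FormallySmooth27
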