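import Mathlib

/-!
# JAC / B6.1 : a group scheme over a field is separated

For a group object `G` in `Over S` whose unit section is a closed immersion, the structure
morphism `G.hom` is separated: the diagonal is the base change of the unit section along
`(x, y) ↦ x / y`.  Over `S = Spec K` with `K` a field the unit section is always a closed
immersion (Mathlib), hence every group scheme over a field is separated.
-/

set_option autoImplicit false

universe u

open CategoryTheory Limits MonoidalCategory CartesianMonoidalCategory MonObj AlgebraicGeometry

namespace Fermat.Agent.JAC.Prop.GrpSep27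

section Abstract

variable {C : Type*} [Category C] [CartesianMonoidalCategory C] (G : C) [GrpObj G]

/-- The diagonal of a group object is the pullback of the unit along the division map. -/
theorem isPullback_diag_unit :
    IsPullback (lift (𝟙 G) (𝟙 G)) (toUnit G) (fst G G / snd G G) η[G] := by
  have hw : lift (𝟙 G) (𝟙 G) ≫ (fst G G / snd G G) = toUnit G ≫ η[G] := by
    rw [GrpObj.comp_div, lift_fst, lift_snd, div_self', Hom.one_def]
  refine ⟨⟨hw⟩, ⟨PullbackCone.IsLimit.mk _ (fun s => s.fst ≫ fst G G) ?_ ?_ ?_⟩⟩
  · intro s
    have h := s.condition
    have hs : s.snd = toUnit _ := toUnit_unique _ _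
    rw [GrpObj.comp_div, hs, ← Hom.one_def, div_eq_one] at h
    apply CartesianMonoidalCategory.hom_ext
    · simp
    · simp [h]
  · intro s
    exact toUnit_unique _ _
  · intro s m hm _
    rw [← hm]
    simp

end Abstract

section Scheme

variable {S : Scheme.{u}} (G : Over S) [GrpObj G]

omit [GrpObj G] in
/-- The diagonal of `G.hom` is the underlying morphism of the categorical diagonal of `G`. -/
theorem lift_id_id_left : (lift (𝟙 G) (𝟙 G)).left = pullback.diagonal G.hom := by
  apply pullback.hom_ext
  · simp only [Over.lift_left, Over.id_left, pullback.lift_fst, pullback.diagonal_fst]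
  · simp only [Over.lift_left, Over.id_left, pullback.lift_snd, pullback.diagonal_snd]

/-- A group scheme over `S` whose unit section is a closed immersion is separated over `S`. -/
theorem isSeparated_of_isClosedImmersion_unit [IsClosedImmersion η[G].left] :
    IsSeparated G.hom := by
  have h := (isPullback_diag_unit G).map (Over.forget S)
  have hci : IsClosedImmersion ((Over.forget S).map (lift (𝟙 G) (𝟙 G))) :=
    MorphismProperty.of_isPullback (P := @IsClosedImmersion) h.flip
      (by simpa using (inferInstance : IsClosedImmersion η[G].left))
  constructor
  rw [← lift_id_id_left]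
  exact hci

end Scheme

section Field

variable {K : Type u} [Field K]

/-- **A group scheme over a field is separated.** -/
instance isSeparated_of_grpObj (G : Over (Spec (.of K))) [GrpObj G] : IsSeparated G.hom :=
  isSeparated_of_isClosedImmersion_unit G

/-- Unbundled form: a morphism `f : X ⟶ Spec K` carrying a group structure is separated. -/
theorem isSeparated_of_grpObj_mk {X : Scheme.{u}} (f : X ⟶ Spec (.of K)) [GrpObj (Over.mk f)] :
    IsSeparated f :=
  isSeparated_of_grpObj (Over.mk f)

end Field

end Fermat.Agent.JAC.Prop.GrpSep27
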