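import Mathlib

/-!
# JAC / B6.3 : properties inherited by the target of a surjective morphism

Let `f : X ⟶ Y` be a surjective morphism of schemes and `g : Y ⟶ S`.  If `f ≫ g` is
quasi-compact (resp. universally closed, geometrically connected, geometrically irreducible)
then so is `g`.  Combined with separatedness and local finiteness of type this yields properness
of `g` from properness of `f ≫ g`.

Intended use (Programme JAC, B6): `X = C^g`, `Y = J`, `f` = the Abel map, `S = Spec k`.
-/

set_option autoImplicit false

universe u

open CategoryTheory Limits AlgebraicGeometry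

namespace Fermat.Agent.JAC.Prop.ImageProps27

variable {X Y S : Scheme.{u}} (f : X ⟶ Y) (g : Y ⟶ S)

/-- Quasi-compactness descends along a surjection. -/
theorem quasiCompact_of_comp_surjective [QuasiCompact (f ≫ g)] [Surjective f] :
    QuasiCompact g := by
  constructor
  intro U hU hUc
  have h1 : IsCompact ((f ≫ g) ⁻¹' U) := QuasiCompact.isCompact_preimage U hU hUc
  have h2 : g ⁻¹' U = f '' ((f ≫ g) ⁻¹' U) := by
    ext y
    constructor
    · intro hy
      obtain ⟨x, rfl⟩ := f.surjective y
      exact ⟨x, by simpa using hy, rfl⟩
    · rintro ⟨x, hx, rfl⟩
      simpa using hx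
  rw [h2]
  exact h1.image f.continuous

/-- Universal closedness descends along a surjection (Mathlib, restated for uniformity). -/
theorem universallyClosed_of_comp_surjective [UniversallyClosed (f ≫ g)] [Surjective f] :
    UniversallyClosed g :=
  UniversallyClosed.of_comp_surjective f g

/-- Base change of the triangle `X ⟶ Y ⟶ S` along `y : T ⟶ S`: the induced map between the
pullbacks is a base change of `f`. -/
theorem isPullback_baseChange_map {T Z : Scheme.{u}} (y : T ⟶ S) (fst : Z ⟶ Y) (snd : Z ⟶ T)
    (h : IsPullback fst snd g y) :
    IsPullback (pullback.fst (f ≫ g) y)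
      (h.lift (pullback.fst (f ≫ g) y ≫ f) (pullback.snd (f ≫ g) y)
        (by rw [Category.assoc, pullback.condition])) f fst :=
  IsPullback.of_bot' (IsPullback.of_hasPullback (f ≫ g) y) h

/-- Geometric connectedness descends along a surjection. -/
theorem geometricallyConnected_of_comp_surjective [GeometricallyConnected (f ≫ g)]
    [Surjective f] : GeometricallyConnected g := by
  constructor
  intro K _ y Z fst snd h
  have hp := isPullback_baseChange_map f g y fst snd h
  set φ := h.lift (pullback.fst (f ≫ g) y ≫ f) (pullback.snd (f ≫ g) y)
    (by rw [Category.assoc, pullback.condition]) with hφ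
  have hsurj : Surjective φ := MorphismProperty.of_isPullback (P := @Surjective) hp ‹_›
  have hconn : ConnectedSpace ↥(pullback (f ≫ g) y) :=
    (GeometricallyConnected.geometrically_connectedSpace (f := f ≫ g)) y _ _
      (IsPullback.of_hasPullback _ _)
  exact hsurj.1.connectedSpace φ.continuous

/-- Geometric irreducibility descends along a surjection. -/
theorem geometricallyIrreducible_of_comp_surjective [GeometricallyIrreducible (f ≫ g)]
    [Surjective f] : GeometricallyIrreducible g := by
  constructor
  intro K _ y Z fst snd h
  have hp := isPullback_baseChange_map f g y fst snd h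
  set φ := h.lift (pullback.fst (f ≫ g) y ≫ f) (pullback.snd (f ≫ g) y)
    (by rw [Category.assoc, pullback.condition]) with hφ
  have hsurj : Surjective φ := MorphismProperty.of_isPullback (P := @Surjective) hp ‹_›
  have hirr : IrreducibleSpace ↥(pullback (f ≫ g) y) :=
    (GeometricallyIrreducible.geometrically_irreducibleSpace (f := f ≫ g)) y _ _
      (IsPullback.of_hasPullback _ _)
  exact hsurj.1.irreducibleSpace φ.continuous

/-- **Properness of the image.** If `X ⟶ S` is proper, `X ⟶ Y` surjective, and `Y ⟶ S` is
separated and locally of finite type, then `Y ⟶ S` is proper. -/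
theorem isProper_of_comp_surjective [IsProper (f ≫ g)] [Surjective f] [IsSeparated g]
    [LocallyOfFiniteType g] : IsProper g := by
  have : QuasiCompact g := quasiCompact_of_comp_surjective f g
  have : UniversallyClosed g := UniversallyClosed.of_comp_surjective f g
  exact { }

end Fermat.Agent.JAC.Prop.ImageProps27
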