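import Mathlib

/-!
# JAC / B6.4a : tensor products of domains over an algebraically closed field

`k` algebraically closed, `A`, `B` commutative `k`-algebras that are domains
`⟹ A ⊗[k] B` is a domain.  (Not in Mathlib at this commit.)

Proof: write `x = ∑ aᵢ ⊗ eᵢ`, `y = ∑ a'ⱼ ⊗ eⱼ` in a `k`-basis `e` of `B`; if `x, y ≠ 0` pick
`a_{i₀} ≠ 0`, `a'_{j₀} ≠ 0`.  Inside the finitely generated subalgebra `A₀ ⊆ A` generated by the
coefficients there is (Nullstellensatz, `A₀` is a Jacobson domain, `k` algebraically closed) a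
`k`-point `φ : A₀ → k` with `φ (a_{i₀} a'_{j₀}) ≠ 0`; applying `φ ⊗ id : A₀ ⊗ B → B` to `x y = 0`
contradicts that `B` is a domain.
-/

set_option autoImplicit false

open scoped TensorProduct

namespace Fermat.Agent.JAC.Prop.TensorDomain27

section Point

variable {k A : Type*} [Field k] [IsAlgClosed k] [CommRing A] [IsDomain A] [Algebra k A]
  [Algebra.FiniteType k A]

/-- **Weak Nullstellensatz, point form.** A nonzero element of a finitely generated domain over an
algebraically closed field is nonzero at some `k`-point. -/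
theorem exists_algHom_apply_ne_zero {f : A} (hf : f ≠ 0) : ∃ φ : A →ₐ[k] k, φ f ≠ 0 := by
  have hJ : IsJacobsonRing A := isJacobsonRing_of_finiteType (A := k) (B := A)
  have hjac : Ideal.jacobson (⊥ : Ideal A) = ⊥ :=
    hJ.out (Ideal.isRadical_bot : (⊥ : Ideal A).IsRadical)
  have hfj : f ∉ Ideal.jacobson (⊥ : Ideal A) := by rw [hjac]; simpa using hf
  rw [Ideal.jacobson, Ideal.mem_sInf] at hfj
  push Not at hfj
  obtain ⟨m, ⟨-, hm⟩, hfm⟩ := hfj
  have := hm
  let _ : Field (A ⧸ m) := Ideal.Quotient.field m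
  have : Algebra.FiniteType k (A ⧸ m) :=
    Algebra.FiniteType.of_surjective (Ideal.Quotient.mkₐ k m) Ideal.Quotient.mk_surjective
  have : Module.Finite k (A ⧸ m) := finite_of_finite_type_of_isJacobsonRing k (A ⧸ m)
  have : Algebra.IsIntegral k (A ⧸ m) := Algebra.IsIntegral.of_finite k (A ⧸ m)
  let e : k ≃ₐ[k] (A ⧸ m) :=
    AlgEquiv.ofBijective (Algebra.ofId k (A ⧸ m)) IsAlgClosed.algebraMap_bijective_of_isIntegral
  refine ⟨(e.symm : (A ⧸ m) →ₐ[k] k).comp (Ideal.Quotient.mkₐ k m), ?_⟩
  rw [AlgHom.comp_apply, Ideal.Quotient.mkₐ_eq_mk]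
  intro h0
  have h1 : (Ideal.Quotient.mk m) f = 0 := by
    have := congrArg e h0
    simpa using this
  exact hfm (Ideal.Quotient.eq_zero_iff_mem.mp h1)

end Point

section Main

variable (k A B : Type*) [Field k] [IsAlgClosed k] [CommRing A] [CommRing B] [Algebra k A]
  [Algebra k B] [IsDomain A] [IsDomain B]

/-- Evaluation `A₀ ⊗ B → B` at a `k`-point `φ` of `A₀`. -/
noncomputable def evalTensor {A₀ : Type*} [CommRing A₀] [Algebra k A₀] (φ : A₀ →ₐ[k] k) :
    A₀ ⊗[k] B →ₐ[k] B :=
  Algebra.TensorProduct.lift ((Algebra.ofId k B).comp φ) (AlgHom.id k B)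
    (fun _ _ => Commute.all _ _)

omit [IsAlgClosed k] [IsDomain B] in
theorem evalTensor_tmul {A₀ : Type*} [CommRing A₀] [Algebra k A₀] (φ : A₀ →ₐ[k] k)
    (a : A₀) (b : B) : evalTensor k B φ (a ⊗ₜ[k] b) = φ a • b := by
  simp [evalTensor, Algebra.ofId_apply, Algebra.smul_def]

/-- **Tensor products of domains over an algebraically closed field have no zero divisors.** -/
theorem noZeroDivisors_tensorProduct : NoZeroDivisors (A ⊗[k] B) := by
  classical
  refine ⟨fun {x y} hxy => ?_⟩
  by_contra hne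
  push Not at hne
  obtain ⟨hx, hy⟩ := hne
  -- coordinates in a basis of `B`
  let b := Module.Free.chooseBasis k B
  let bA := Algebra.TensorProduct.basis A b
  set cx := bA.repr x with hcx
  set cy := bA.repr y with hcy
  have hcx0 : cx ≠ 0 := fun h => hx (by simpa [hcx] using h)
  have hcy0 : cy ≠ 0 := fun h => hy (by simpa [hcy] using h)
  obtain ⟨i₀, hi₀⟩ := Finsupp.ne_iff.mp hcx0
  obtain ⟨j₀, hj₀⟩ := Finsupp.ne_iff.mp hcy0
  simp only [Finsupp.coe_zero, Pi.zero_apply] at hi₀ hj₀
  -- finitely generated subalgebra containing the coordinates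
  let S : Finset A := cx.support.image cx ∪ cy.support.image cy
  let A₀ : Subalgebra k A := Algebra.adjoin k (S : Set A)
  have hmemx : ∀ i, cx i ∈ A₀ := by
    intro i
    by_cases hi : i ∈ cx.support
    · exact Algebra.subset_adjoin (by
        simp only [S, Finset.coe_union, Finset.coe_image, Set.mem_union, Set.mem_image]
        exact Or.inl ⟨i, hi, rfl⟩)
    · rw [Finsupp.notMem_support_iff.mp hi]; exact zero_mem _
  have hmemy : ∀ j, cy j ∈ A₀ := by
    intro j
    by_cases hj : j ∈ cy.support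
    · exact Algebra.subset_adjoin (by
        simp only [S, Finset.coe_union, Finset.coe_image, Set.mem_union, Set.mem_image]
        exact Or.inr ⟨j, hj, rfl⟩)
    · rw [Finsupp.notMem_support_iff.mp hj]; exact zero_mem _
  have hft : Algebra.FiniteType k A₀ :=
    (Subalgebra.fg_iff_finiteType A₀).mp (Subalgebra.fg_adjoin_finset S)
  -- lifts of `x`, `y` to `A₀ ⊗ B`
  let x₀ : A₀ ⊗[k] B := ∑ i ∈ cx.support, (⟨cx i, hmemx i⟩ : A₀) ⊗ₜ[k] b i
  let y₀ : A₀ ⊗[k] B := ∑ j ∈ cy.support, (⟨cy j, hmemy j⟩ : A₀) ⊗ₜ[k] b j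
  let ι : A₀ ⊗[k] B →ₐ[k] A ⊗[k] B := Algebra.TensorProduct.map A₀.val (AlgHom.id k B)
  have hιx : ι x₀ = x := by
    have h1 : x = ∑ i ∈ cx.support, cx i • bA i := by
      conv_lhs => rw [← bA.linearCombination_repr x]
      rw [Finsupp.linearCombination_apply, Finsupp.sum]
    rw [h1, map_sum]
    refine Finset.sum_congr rfl fun i _ => ?_
    rw [Algebra.TensorProduct.basis_repr_symm_apply']
    simp [ι]
  have hιy : ι y₀ = y := by
    have h1 : y = ∑ j ∈ cy.support, cy j • bA j := by
      conv_lhs => rw [← bA.linearCombination_repr y]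
      rw [Finsupp.linearCombination_apply, Finsupp.sum]
    rw [h1, map_sum]
    refine Finset.sum_congr rfl fun j _ => ?_
    rw [Algebra.TensorProduct.basis_repr_symm_apply']
    simp [ι]
  have hιinj : Function.Injective ι := by
    have : Function.Injective (A₀.val.toLinearMap.rTensor B) :=
      Module.Flat.rTensor_preserves_injective_linearMap _ Subtype.val_injective
    have hι_eq : ∀ u, ι u = (A₀.val.toLinearMap.rTensor B) u := by
      intro u
      induction u using TensorProduct.induction_on with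
      | zero => simp
      | tmul a c => simp [ι]
      | add u v hu hv => simp only [map_add, hu, hv]
    intro u v huv
    apply this
    rw [← hι_eq, ← hι_eq, huv]
  have hxy₀ : x₀ * y₀ = 0 := hιinj (by rw [map_mul, hιx, hιy, hxy, map_zero])
  -- the k-point
  have hf : (⟨cx i₀, hmemx i₀⟩ : A₀) * ⟨cy j₀, hmemy j₀⟩ ≠ 0 := by
    refine mul_ne_zero ?_ ?_ <;> simpa [Subtype.ext_iff] using ‹_›
  obtain ⟨φ, hφ⟩ := exists_algHom_apply_ne_zero (k := k) hf
  rw [map_mul] at hφ
  have hprod : evalTensor k B φ x₀ * evalTensor k B φ y₀ = 0 := by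
    rw [← map_mul, hxy₀, map_zero]
  have hx₀ : evalTensor k B φ x₀ = ∑ i ∈ cx.support, φ ⟨cx i, hmemx i⟩ • b i := by
    simp only [x₀, map_sum, evalTensor_tmul]
  have hy₀ : evalTensor k B φ y₀ = ∑ j ∈ cy.support, φ ⟨cy j, hmemy j⟩ • b j := by
    simp only [y₀, map_sum, evalTensor_tmul]
  have hi₀s : i₀ ∈ cx.support := Finsupp.mem_support_iff.mpr hi₀
  have hj₀s : j₀ ∈ cy.support := Finsupp.mem_support_iff.mpr hj₀
  rcases mul_eq_zero.mp hprod with h0 | h0
  · rw [hx₀] at h0
    have := linearIndependent_iff'.mp b.linearIndependent cx.support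
      (fun i => φ ⟨cx i, hmemx i⟩) h0 i₀ hi₀s
    exact hφ (by rw [this, zero_mul])
  · rw [hy₀] at h0
    have := linearIndependent_iff'.mp b.linearIndependent cy.support
      (fun j => φ ⟨cy j, hmemy j⟩) h0 j₀ hj₀s
    exact hφ (by rw [this, mul_zero])

/-- **Tensor products of domains over an algebraically closed field are domains.** -/
theorem isDomain_tensorProduct : IsDomain (A ⊗[k] B) := by
  have h1 : NoZeroDivisors (A ⊗[k] B) := noZeroDivisors_tensorProduct k A B
  have h2 : Nontrivial (A ⊗[k] B) := by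
    have hinj : Function.Injective (Algebra.TensorProduct.includeLeft : A →ₐ[k] A ⊗[k] B) :=
      Algebra.TensorProduct.includeLeft_injective (algebraMap k B).injective
    exact hinj.nontrivial
  exact NoZeroDivisors.to_isDomain _

end Main

end Fermat.Agent.JAC.Prop.TensorDomain27
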