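import Mathlib
import Fermat.Agent.JAC.Prop.TensorDomain27

/-!
# JAC / B6.4b : integral schemes over an algebraically closed field are geometrically integral

`k` algebraically closed, `X` an integral scheme, `f : X ⟶ Spec k`  `⟹  GeometricallyIntegral f`.

Proof: for a field extension `K / k` cover `X_K = X ×ₖ Spec K` by the preimages of the nonempty
affine opens `U` of `X`; each preimage is `Spec (Γ(X,U) ⊗ₖ K)`, an integral scheme by
`TensorDomain27.isDomain_tensorProduct`; they pairwise intersect because `X` is irreducible and
`X_K ⟶ X` is surjective.  Hence `X_K` is reduced and irreducible.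

Also: composition of geometrically integral morphisms (the first one flat and universally open,
the second one locally of finite type over a field), used for products `C^g`.
-/

set_option autoImplicit false

universe u

open CategoryTheory Limits AlgebraicGeometry CommRingCat TopologicalSpace
open scoped TensorProduct

namespace Fermat.Agent.JAC.Prop.GeomIntegral27

variable {k : Type u} [Field k]

section AlgClosed

variable [IsAlgClosed k] {K : Type u} [Field K] [Algebra k K]

/-- Affine case: `Spec A ×ₖ Spec K` is integral for a domain `A` over an algebraically closed `k`. -/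
theorem isIntegral_pullback_of_isAffine {W : Scheme.{u}} [IsAffine W] [IsIntegral W]
    (h : W ⟶ Spec (.of k)) :
    IsIntegral (pullback h (Spec.map (CommRingCat.ofHom (algebraMap k K)))) := by
  obtain ⟨ψ, hψ⟩ := Spec.map_surjective (W.isoSpec.inv ≫ h)
  have hh : h = W.isoSpec.hom ≫ Spec.map ψ := by rw [hψ, Iso.hom_inv_id_assoc]
  algebraize [ψ.hom]
  have hdom : IsDomain (Γ(W, ⊤) ⊗[k] K) :=
    TensorDomain27.isDomain_tensorProduct k Γ(W, ⊤) K
  set g := Spec.map (CommRingCat.ofHom (algebraMap k K)) with hg
  have hψ' : Spec.map ψ = Spec.map (CommRingCat.ofHom (algebraMap k Γ(W, ⊤))) := rfl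
  have hpb : IsPullback (pullback.fst h g ≫ W.isoSpec.hom) (pullback.snd h g)
      (Spec.map (CommRingCat.ofHom (algebraMap k Γ(W, ⊤)))) g := by
    refine IsPullback.of_iso (IsPullback.of_hasPullback h g) (Iso.refl _) W.isoSpec (Iso.refl _)
      (Iso.refl _) ?_ ?_ ?_ ?_
    · simp
    · simp
    · rw [← hψ', hh]; simp
    · simp
  let e := hpb.isoPullback ≪≫ pullbackSpecIso k Γ(W, ⊤) K
  have : IsIntegral (Spec (.of (Γ(W, ⊤) ⊗[k] K))) := inferInstance
  exact IsIntegral.of_isIso e.inv

/-- The preimage in `X ×ₖ Spec K` of a nonempty affine open of an integral `X` is integral. -/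
theorem isIntegral_preimage {X : Scheme.{u}} [IsIntegral X] (f : X ⟶ Spec (.of k))
    (U : X.Opens) (hU : IsAffineOpen U) [Nonempty U] :
    IsIntegral
      ((pullback.fst f (Spec.map (CommRingCat.ofHom (algebraMap k K)))) ⁻¹ᵁ U).toScheme := by
  set g := Spec.map (CommRingCat.ofHom (algebraMap k K)) with hg
  have : IsAffine U.toScheme := hU
  have : IsIntegral U.toScheme := isIntegral_of_isOpenImmersion U.ι
  have h1 : IsIntegral (pullback (U.ι ≫ f) g) := isIntegral_pullback_of_isAffine (U.ι ≫ f)
  let e := (pullbackRestrictIsoRestrict (pullback.fst f g) U).symm ≪≫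
    pullbackSymmetry _ _ ≪≫ pullbackRightPullbackFstIso f g U.ι
  exact IsIntegral.of_isIso e.inv

/-- The index type of the cover: nonempty affine opens of `X`. -/
abbrev NEAffine (X : Scheme.{u}) : Type u := {U : X.Opens // IsAffineOpen U ∧ Nonempty U}

/-- Base change of an integral scheme over an algebraically closed field to any field extension
is integral. -/
theorem isIntegral_pullback {X : Scheme.{u}} [IsIntegral X] (f : X ⟶ Spec (.of k)) :
    IsIntegral (pullback f (Spec.map (CommRingCat.ofHom (algebraMap k K)))) := by
  set g := Spec.map (CommRingCat.ofHom (algebraMap k K)) with hg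
  set p := pullback.fst f g with hp
  have hgs : Surjective g := by
    constructor
    intro x
    have : Nonempty (Spec (CommRingCat.of K)) := inferInstance
    obtain ⟨y⟩ := this
    exact ⟨y, Subsingleton.elim _ _⟩
  have hsurj : Surjective p := inferInstance
  let V : NEAffine X → (pullback f g).Opens := fun U => p ⁻¹ᵁ U.1
  have hcov : IsOpenCover V := by
    refine IsOpenCover.mk (top_le_iff.mp fun y _ => ?_)
    obtain ⟨_, ⟨U, hU, rfl⟩, hxU, -⟩ :=
      X.isBasis_affineOpens.exists_subset_of_mem_open (Set.mem_univ (p y)) isOpen_univ
    rw [Opens.mem_iSup]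
    exact ⟨⟨U, hU, ⟨⟨p y, hxU⟩⟩⟩, hxU⟩
  have hint : ∀ i, IsIntegral (V i).toScheme := fun i => by
    have := i.2.2
    exact isIntegral_preimage f i.1 i.2.1
  have hred : IsReduced (pullback f g) :=
    have : ∀ i, IsReduced (((pullback f g).openCoverOfIsOpenCover V hcov).X i) := fun i => by
      have := hint i
      change IsReduced (V i).toScheme
      infer_instance
    IsReduced.of_openCover _ ((pullback f g).openCoverOfIsOpenCover V hcov)
  have hne : Nonempty ↥(pullback f g) := by
    obtain ⟨x⟩ := (inferInstance : Nonempty X)
    obtain ⟨y, -⟩ := hsurj.1 x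
    exact ⟨y⟩
  have hpre : PreirreducibleSpace ↥(pullback f g) := by
    refine PreirreducibleSpace.of_isOpenCover ?_ hcov fun i => ?_
    · intro i j _
      simp only [Function.onFun]
      obtain ⟨x, hxi, hxj⟩ := nonempty_preirreducible_inter i.1.2 j.1.2
        (by obtain ⟨x⟩ := i.2.2; exact ⟨x.1, x.2⟩) (by obtain ⟨x⟩ := j.2.2; exact ⟨x.1, x.2⟩)
      obtain ⟨y, rfl⟩ := hsurj.1 x
      intro hdis
      have h1 : y ∈ V i ⊓ V j := ⟨hxi, hxj⟩
      rw [hdis.eq_bot] at h1
      exact h1
    · have := hint i
      have h2 : IrreducibleSpace ↥(V i).toScheme := inferInstance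
      exact h2.toPreirreducibleSpace
  have hirr : IrreducibleSpace ↥(pullback f g) :=
    { toPreirreducibleSpace := hpre, toNonempty := hne }
  exact isIntegral_of_irreducibleSpace_of_isReduced _

/-- **An integral scheme over an algebraically closed field is geometrically integral.** -/
theorem geometricallyIntegral_of_isIntegral {X : Scheme.{u}} [IsIntegral X]
    (f : X ⟶ Spec (.of k)) : GeometricallyIntegral f := by
  have : ObjectProperty.IsClosedUnderIsomorphisms (C := Scheme.{u}) AlgebraicGeometry.IsIntegral :=
    ⟨fun e h => by have := h; exact IsIntegral.of_isIso e.hom⟩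
  constructor
  rw [geometrically_iff_of_commRing_of_isClosedUnderIsomorphisms]
  intro K _ _
  exact isIntegral_pullback f

end AlgClosed

section Comp

variable {X Y : Scheme.{u}}

/-- Composition of geometrically integral morphisms, the second one locally of finite type over a
field and the first one flat and universally open. -/
theorem geometricallyIntegral_comp (f : X ⟶ Y) (g : Y ⟶ Spec (.of k))
    [GeometricallyIntegral f] [Flat f] [UniversallyOpen f]
    [GeometricallyIntegral g] [LocallyOfFiniteType g] : GeometricallyIntegral (f ≫ g) := by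
  have : ObjectProperty.IsClosedUnderIsomorphisms (C := Scheme.{u}) AlgebraicGeometry.IsIntegral :=
    ⟨fun e h => by have := h; exact IsIntegral.of_isIso e.hom⟩
  constructor
  rw [geometrically_iff_of_isClosedUnderIsomorphisms]
  intro K _ y
  have h1 : IsIntegral (pullback g y) :=
    GeometricallyIntegral.geometrically_isIntegral (f := g) y _ _ (IsPullback.of_hasPullback g y)
  have h2 : IsLocallyNoetherian (pullback g y) :=
    LocallyOfFiniteType.isLocallyNoetherian (pullback.snd g y)
  have h3 : IsIntegral (pullback f (pullback.fst g y)) := inferInstance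
  exact IsIntegral.of_isIso (pullbackRightPullbackFstIso g y f).hom

end Comp

end Fermat.Agent.JAC.Prop.GeomIntegral27
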