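import Mathlib
import Fermat.Agent.JAC.Prop.GeomIntegral27

/-!
# JAC / B6.4c : fibre powers `X^n` over a base and their properties

`fibrePow X n` is the `n`-fold fibre power of `X : Over S` (defined through the cartesian monoidal
structure of `Over S`, so `(fibrePow X (n+1)).left = pullback (fibrePow X n).hom X.hom`).

* `fibrePow_hom_mem`: any morphism property stable under base change and composition that holds
  for `X.hom` and for `𝟙 S` holds for `(fibrePow X n).hom`;
* instances of it: proper, smooth, flat, universally open, locally of finite type;
* over `S = Spec k`, `k` a field: geometrically integral (hence geometrically connected /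
  irreducible) fibre powers of a geometrically integral, flat, universally open `X` locally of
  finite type;
* `curve_fibrePow`: for a proper, smooth (rel. dim. 1), integral curve `C` over an algebraically
  closed field, `C^n ⟶ Spec k` is proper, smooth and geometrically integral.
-/

set_option autoImplicit false

universe u

open CategoryTheory Limits AlgebraicGeometry MonoidalCategory CartesianMonoidalCategory
  MorphismProperty

namespace Fermat.Agent.JAC.Prop.PowerCurve27

section General

variable {S : Scheme.{u}}

/-- The `n`-fold fibre power of `X` over `S`. -/
noncomputable def fibrePow (X : Over S) : ℕ → Over S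
  | 0 => 𝟙_ (Over S)
  | n + 1 => fibrePow X n ⊗ X

@[simp] theorem fibrePow_zero (X : Over S) : fibrePow X 0 = 𝟙_ (Over S) := rfl

@[simp] theorem fibrePow_succ (X : Over S) (n : ℕ) : fibrePow X (n + 1) = fibrePow X n ⊗ X := rfl

theorem fibrePow_succ_hom (X : Over S) (n : ℕ) :
    (fibrePow X (n + 1)).hom = pullback.fst (fibrePow X n).hom X.hom ≫ (fibrePow X n).hom := rfl

/-- A morphism property stable under base change and composition passes to fibre powers. -/
theorem fibrePow_hom_mem (P : MorphismProperty Scheme.{u}) [P.IsStableUnderBaseChange]
    [P.IsStableUnderComposition] (X : Over S) (hid : P (𝟙 S)) (hX : P X.hom) :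
    ∀ n, P (fibrePow X n).hom
  | 0 => hid
  | n + 1 => by
    rw [fibrePow_succ_hom]
    exact P.comp_mem _ _ (P.pullback_fst _ _ hX) (fibrePow_hom_mem P X hid hX n)

instance isProper_fibrePow (X : Over S) [IsProper X.hom] (n : ℕ) : IsProper (fibrePow X n).hom :=
  fibrePow_hom_mem @IsProper X inferInstance inferInstance n

instance smooth_fibrePow (X : Over S) [Smooth X.hom] (n : ℕ) : Smooth (fibrePow X n).hom :=
  fibrePow_hom_mem @Smooth X inferInstance inferInstance n

instance flat_fibrePow (X : Over S) [Flat X.hom] (n : ℕ) : Flat (fibrePow X n).hom :=
  fibrePow_hom_mem @Flat X inferInstance inferInstance n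

instance universallyOpen_fibrePow (X : Over S) [UniversallyOpen X.hom] (n : ℕ) :
    UniversallyOpen (fibrePow X n).hom :=
  fibrePow_hom_mem @UniversallyOpen X inferInstance inferInstance n

instance locallyOfFiniteType_fibrePow (X : Over S) [LocallyOfFiniteType X.hom] (n : ℕ) :
    LocallyOfFiniteType (fibrePow X n).hom :=
  fibrePow_hom_mem @LocallyOfFiniteType X inferInstance inferInstance n

end General

section Field

variable {k : Type u} [Field k]

/-- The product of two geometrically integral schemes over a field is geometrically integral. -/
theorem geometricallyIntegral_prod {A B : Scheme.{u}} (a : A ⟶ Spec (.of k))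
    (b : B ⟶ Spec (.of k)) [GeometricallyIntegral a] [LocallyOfFiniteType a]
    [GeometricallyIntegral b] [Flat b] [UniversallyOpen b] :
    GeometricallyIntegral (pullback.fst a b ≫ a) :=
  GeomIntegral27.geometricallyIntegral_comp _ _

/-- Fibre powers of a geometrically integral (flat, universally open, locally of finite type)
scheme over a field are geometrically integral. -/
theorem geometricallyIntegral_fibrePow (X : Over (Spec (.of k))) [GeometricallyIntegral X.hom]
    [Flat X.hom] [UniversallyOpen X.hom] [LocallyOfFiniteType X.hom] :
    ∀ n, GeometricallyIntegral (fibrePow X n).hom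
  | 0 => by
    change GeometricallyIntegral (𝟙 (Spec (.of k)))
    constructor
    intro K _ y Z fst snd hP
    have : IsIso snd := hP.isIso_snd_of_isIso
    exact IsIntegral.of_isIso (inv snd)
  | n + 1 => by
    have ih := geometricallyIntegral_fibrePow X n
    have hlft : LocallyOfFiniteType (fibrePow X n).hom := inferInstance
    rw [fibrePow_succ_hom]
    exact @geometricallyIntegral_prod k _ _ _ (fibrePow X n).hom X.hom ih hlft ‹_› ‹_› ‹_›

/-- **Powers of a curve.** For a proper, smooth (relative dimension one), integral curve over an
algebraically closed field, `C^n ⟶ Spec k` is proper, smooth and geometrically integral (in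
particular geometrically connected and geometrically irreducible). -/
theorem curve_fibrePow [IsAlgClosed k] {C : Scheme.{u}} (c : C ⟶ Spec (.of k)) [IsProper c]
    [SmoothOfRelativeDimension 1 c] [IsIntegral C] (n : ℕ) :
    IsProper (fibrePow (Over.mk c) n).hom ∧ Smooth (fibrePow (Over.mk c) n).hom ∧
      GeometricallyIntegral (fibrePow (Over.mk c) n).hom := by
  have hs : Smooth c := SmoothOfRelativeDimension.smooth 1 c
  have hgi : GeometricallyIntegral c := GeomIntegral27.geometricallyIntegral_of_isIntegral c
  have h1 : IsProper (Over.mk c).hom := ‹IsProper c›
  have h2 : Smooth (Over.mk c).hom := hs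
  have h3 : GeometricallyIntegral (Over.mk c).hom := hgi
  exact ⟨inferInstance, inferInstance, geometricallyIntegral_fibrePow (Over.mk c) n⟩

/-- Geometrically irreducible morphisms are geometrically connected. -/
theorem geometricallyConnected_of_geometricallyIrreducible {X S : Scheme.{u}} (f : X ⟶ S)
    [GeometricallyIrreducible f] : GeometricallyConnected f := by
  constructor
  intro K _ y Z fst snd hP
  have : IrreducibleSpace Z :=
    GeometricallyIrreducible.geometrically_irreducibleSpace (f := f) y fst snd hP
  infer_instance

/-- `C^n` is geometrically connected. -/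
theorem curve_fibrePow_geometricallyConnected [IsAlgClosed k] {C : Scheme.{u}}
    (c : C ⟶ Spec (.of k)) [IsProper c] [SmoothOfRelativeDimension 1 c] [IsIntegral C] (n : ℕ) :
    GeometricallyConnected (fibrePow (Over.mk c) n).hom := by
  have := (curve_fibrePow c n).2.2
  exact geometricallyConnected_of_geometricallyIrreducible _

end Field

end Fermat.Agent.JAC.Prop.PowerCurve27
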