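import Mathlib
import Fermat.Agent.JAC.Prop.GrpSep27
import Fermat.Agent.JAC.Prop.ImageProps27
import Fermat.Agent.JAC.Prop.FormallySmooth27
import Fermat.Agent.JAC.Prop.SmoothReduced27
import Fermat.Agent.JAC.Prop.PowerCurve27

/-!
# JAC / B6.5 : assembly of the scheme-level properties of the Jacobian

Abstract form (no curve, no Picard functor): let `π : J ⟶ Spec k` be a group scheme, locally of
finite type over a field `k`, having the functorial infinitesimal lifting property, and let
`σ : W ⟶ J` be a surjection from a `k`-scheme `W` which is proper and geometrically irreducible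
over `k`.  Then `π` is smooth, proper, geometrically connected and geometrically integral.

For the Jacobian: `W = C^g` (`PowerCurve27.fibrePow`), `σ` = the sum of the Abel maps.
-/

set_option autoImplicit false

universe u

open CategoryTheory Limits AlgebraicGeometry

namespace Fermat.Agent.JAC.Prop.Assembly27

open Fermat.Agent.JAC.Prop

variable {k : Type u} [Field k] {J : Scheme.{u}} (π : J ⟶ Spec (.of k))

/-- Smoothness of a locally finite type `k`-scheme from the infinitesimal lifting property. -/
theorem smooth_of_lifting_field [LocallyOfFiniteType π]
    (Hlift : FormallySmooth27.HasInfinitesimalLifting π) : Smooth π :=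
  FormallySmooth27.smooth_of_lifting Hlift

/-- Properness of a separated, locally finite type `k`-scheme dominated by a proper one. -/
theorem isProper_of_surjective [LocallyOfFiniteType π] [IsSeparated π]
    {W : Scheme.{u}} (σ : W ⟶ J) [Surjective σ] [IsProper (σ ≫ π)] : IsProper π :=
  ImageProps27.isProper_of_comp_surjective σ π

/-- **B6.5, abstract form.** -/
theorem properties_of_group_scheme [LocallyOfFiniteType π] [GrpObj (Over.mk π)]
    (Hlift : FormallySmooth27.HasInfinitesimalLifting π)
    {W : Scheme.{u}} (σ : W ⟶ J) [Surjective σ] [IsProper (σ ≫ π)]
    [GeometricallyIrreducible (σ ≫ π)] :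
    Smooth π ∧ IsProper π ∧ GeometricallyConnected π ∧ GeometricallyIntegral π := by
  have hsep : IsSeparated π := GrpSep27.isSeparated_of_grpObj_mk π
  have hsm : Smooth π := smooth_of_lifting_field π Hlift
  have hprop : IsProper π := isProper_of_surjective π σ
  have hirr : GeometricallyIrreducible π :=
    ImageProps27.geometricallyIrreducible_of_comp_surjective σ π
  have hint : GeometricallyIntegral π :=
    SmoothReduced27.geometricallyIntegral_of_smooth_of_geometricallyIrreducible π
  have hconn : GeometricallyConnected π :=
    PowerCurve27.geometricallyConnected_of_geometricallyIrreducible π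
  exact ⟨hsm, hprop, hconn, hint⟩

end Fermat.Agent.JAC.Prop.Assembly27
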