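import Mathlib
import Fermat.Agent.JAC.Prop.Assembly27
import Fermat.Agent.JAC.Grp.GeomSurj6

/-!
# JAC / B6.5 (curve form) : properties of `J` from the Abel map

* `fibrePowProj`, `fibrePowLift`, `fibrePowLift_proj` : projections and the (existence half of
  the) universal property of the fibre powers `PowerCurve27.fibrePow`.
* `jacobian_properties` : let `C` be a proper smooth integral curve over an algebraically closed
  field `k`, `π : J ⟶ Spec k` a commutative group scheme locally of finite type with the
  infinitesimal lifting property, `a : C ⟶ J` a `k`-morphism and `g : ℕ` such that every geometric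
  point of `J` is a sum of `g` values of `a`.  Then `π` is smooth, proper, geometrically connected
  and geometrically integral.
-/

set_option autoImplicit false

universe u

open CategoryTheory Limits AlgebraicGeometry MonoidalCategory CartesianMonoidalCategory MonObj

namespace Fermat.Agent.JAC.Prop.JacobianProps27

open Fermat.Agent.JAC.Prop Fermat.Agent.JAC.Prop.PowerCurve27 Fermat.Agent.JAC.Grp

section Pow

variable {S : Scheme.{u}} (X : Over S)

/-- The projections `X^n ⟶ X`. -/
noncomputable def fibrePowProj : ∀ n : ℕ, Fin n → (fibrePow X n ⟶ X)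
  | 0 => fun i => i.elim0
  | n + 1 => Fin.lastCases (snd (fibrePow X n) X) (fun i => fst (fibrePow X n) X ≫ fibrePowProj n i)

/-- The morphism `T ⟶ X^n` with prescribed components. -/
noncomputable def fibrePowLift {T : Over S} : ∀ n : ℕ, (Fin n → (T ⟶ X)) → (T ⟶ fibrePow X n)
  | 0 => fun _ => toUnit T
  | n + 1 => fun y => lift (fibrePowLift n (fun i => y i.castSucc)) (y (Fin.last n))

theorem fibrePowLift_proj {T : Over S} :
    ∀ (n : ℕ) (y : Fin n → (T ⟶ X)) (i : Fin n), fibrePowLift X n y ≫ fibrePowProj X n i = y i
  | 0, _, i => i.elim0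
  | n + 1, y, i => by
    induction i using Fin.lastCases with
    | last =>
      simp only [fibrePowLift, fibrePowProj, Fin.lastCases_last]
      exact lift_snd _ _
    | cast i =>
      simp only [fibrePowLift, fibrePowProj, Fin.lastCases_castSucc]
      rw [← Category.assoc]
      erw [lift_fst]
      exact fibrePowLift_proj n _ i

end Pow

section Jacobian

variable {k : Type u} [Field k] [IsAlgClosed k] {C : Scheme.{u}} (c : C ⟶ Spec (.of k))
  [IsProper c] [SmoothOfRelativeDimension 1 c] [IsIntegral C]
  {J : Scheme.{u}} (π : J ⟶ Spec (.of k)) [LocallyOfFiniteType π]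
  [GrpObj (Over.mk π)] [IsCommMonObj (Over.mk π)]

/-- **B6.5, curve form.** -/
theorem jacobian_properties
    (Hlift : FormallySmooth27.HasInfinitesimalLifting π)
    (a : Over.mk c ⟶ Over.mk π) (g : ℕ)
    (hG : ∀ (K : Type u) [Field K] [IsAlgClosed K]
      (t : Spec (CommRingCat.of K) ⟶ Spec (.of k)) (z : Over.mk t ⟶ Over.mk π),
      ∃ y : Fin g → (Over.mk t ⟶ Over.mk c), ∏ i, y i ≫ a = z) :
    Smooth π ∧ IsProper π ∧ GeometricallyConnected π ∧ GeometricallyIntegral π := by
  let W : Over (Spec (.of k)) := fibrePow (Over.mk c) g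
  let σ : W ⟶ Over.mk π := SumMap6.sumMap (fibrePowProj (Over.mk c) g) a
  have hsurj : Surjective σ.left :=
    GeomSurj6.surjective_sumMap (fibrePowProj (Over.mk c) g) a
      (fun K _ _ t y => ⟨fibrePowLift (Over.mk c) g y, fibrePowLift_proj (Over.mk c) g y⟩) hG
  have hw : σ.left ≫ π = W.hom := Over.w σ
  obtain ⟨hprop, -, hint⟩ := curve_fibrePow c g
  have h1 : IsProper (σ.left ≫ π) := by rw [hw]; exact hprop
  have h2 : GeometricallyIrreducible (σ.left ≫ π) := by
    rw [hw]
    have : GeometricallyIntegral W.hom := hint
    infer_instance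
  exact Assembly27.properties_of_group_scheme π Hlift σ.left

end Jacobian

end Fermat.Agent.JAC.Prop.JacobianProps27
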