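import Mathlib
import Fermat.Agent.JAC.Prop.JacobianProps27
import Fermat.Agent.JAC.Prop.Charts27
import Fermat.Agent.JAC.Grp.AbsOver6

/-!
# JAC / B6.5 (functor-of-points form) : properties of `J` from an `AbsRep`

Input: `r : AbsOver6.AbsRep (.of k) J F` (the output shape of `Repr/Main10` + the projection to
`k`-algebra structures), commutative group structures on the fibres of `F` (A6c), the square-zero
lifting property (FS) of `F` (A6b), finite type charts, an Abel map `a : C ⟶ J` and the statement
that every geometric point of `F` is a sum of `g` values of the Abel map (A2/A5).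

Output: `Smooth ∧ IsProper ∧ GeometricallyConnected ∧ GeometricallyIntegral` for `r.toBase`.
-/

set_option autoImplicit false

universe u

open CategoryTheory Limits AlgebraicGeometry MonoidalCategory CartesianMonoidalCategory MonObj

namespace Fermat.Agent.JAC.Prop.AbsRepProps27

open Fermat.Agent.JAC.Prop Fermat.Agent.JAC.Grp Fermat.Agent.JAC.Grp.AbsOver6

variable {k : Type u} [Field k] {J : Scheme.{u}} {F : CommRingCat.{u} ⥤ Type u}
  (r : AbsRep (CommRingCat.of k) J F)

/-- The square-zero lifting property (FS) of a functor `F` living over `k`-algebras. -/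
def LiftsSquareZero : Prop :=
  ∀ (B : CommRingCat.{u}) (I : Ideal B), I ^ 2 = ⊥ →
    ∀ (ξbar : F.obj (CommRingCat.of (B ⧸ I))) (ρ : CommRingCat.of k ⟶ B),
      ρ ≫ CommRingCat.ofHom (Ideal.Quotient.mk I) = r.π _ ξbar →
      ∃ ξ : F.obj B, F.map (CommRingCat.ofHom (Ideal.Quotient.mk I)) ξ = ξbar ∧ r.π B ξ = ρ

/-- (FS) for `F` gives the infinitesimal lifting property of `J ⟶ Spec k`. -/
theorem hasInfinitesimalLifting_toBase (hFS : LiftsSquareZero r) :
    FormallySmooth27.HasInfinitesimalLifting r.toBase := by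
  intro B _ _ I hI a ha
  have hπ : r.π _ (r.e _ a) = CommRingCat.ofHom (algebraMap k (B ⧸ I)) := by
    apply Spec.map_injective
    rw [← r.comp_toBase, ha]
  obtain ⟨ξ, hξ, hξπ⟩ := hFS (CommRingCat.of B) I hI (r.e _ a)
    (CommRingCat.ofHom (algebraMap k B)) (by rw [hπ]; rfl)
  refine ⟨(r.e _).symm ξ, ?_, ?_⟩
  · rw [r.comp_toBase, Equiv.apply_symm_apply, hξπ]
  · apply (r.e _).injective
    rw [r.e_comp, Equiv.apply_symm_apply, hξ]

section Main

variable [grp : ∀ (B : CommRingCat.{u}) (φ : CommRingCat.of k ⟶ B), CommGroup (r.Fib B φ)]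
  (map_mul : ∀ {B B' : CommRingCat.{u}} (ψ : B ⟶ B') {φ : CommRingCat.of k ⟶ B}
    {φ' : CommRingCat.of k ⟶ B'} (h : φ ≫ ψ = φ') (x y : r.Fib B φ),
    r.mapFib ψ h (x * y) = r.mapFib ψ h x * r.mapFib ψ h y)

/-- The group scheme structure on `J` induced by commutative group structures on the fibres. -/
@[instance_reducible]
noncomputable def grpObjOfComm : GrpObj r.overBase :=
  r.grpObj (fun B φ => (grp B φ).toGroup) map_mul

theorem isCommMonObj_ofComm :
    letI := grpObjOfComm r map_mul
    IsCommMonObj r.overBase :=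
  r.isCommMonObj (fun B φ => (grp B φ).toGroup) map_mul fun _ _ x y => mul_comm x y

/-- `ptsEquiv` as a monoid homomorphism. -/
noncomputable def ptsMonoidHom {B : CommRingCat.{u}} (t : Spec B ⟶ Spec (.of k)) :
    letI := grpObjOfComm r map_mul
    (Over.mk t ⟶ r.overBase) →* r.Fib B (Spec.preimage t) :=
  letI := grpObjOfComm r map_mul
  { toFun := r.ptsEquiv t
    map_one' := r.ptsEquiv_one (fun B φ => (grp B φ).toGroup) map_mul t
    map_mul' := fun a b => r.ptsEquiv_mul (fun B φ => (grp B φ).toGroup) map_mul a b }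

variable [IsAlgClosed k] {C : Scheme.{u}} (c : C ⟶ Spec (.of k)) [IsProper c]
  [SmoothOfRelativeDimension 1 c] [IsIntegral C]

include map_mul in
/-- **B6.5, functor-of-points form.** -/
theorem absRep_properties [LocallyOfFiniteType r.toBase] (hFS : LiftsSquareZero r)
    (a : Over.mk c ⟶ r.overBase) (g : ℕ)
    (hG : ∀ (K : Type u) [Field K] [IsAlgClosed K]
      (t : Spec (CommRingCat.of K) ⟶ Spec (.of k))
      (z : r.Fib (CommRingCat.of K) (Spec.preimage t)),
      ∃ y : Fin g → (Over.mk t ⟶ Over.mk c), ∏ i, r.ptsEquiv t (y i ≫ a) = z) :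
    Smooth r.toBase ∧ IsProper r.toBase ∧ GeometricallyConnected r.toBase ∧
      GeometricallyIntegral r.toBase := by
  let _ := grpObjOfComm r map_mul
  have := isCommMonObj_ofComm r map_mul
  refine JacobianProps27.jacobian_properties c r.toBase (hasInfinitesimalLifting_toBase r hFS)
    a g fun K _ _ t z => ?_
  obtain ⟨y, hy⟩ := hG K t (r.ptsEquiv t z)
  refine ⟨y, (r.ptsEquiv t).injective ?_⟩
  rw [← hy]
  exact map_prod (ptsMonoidHom r map_mul t) (fun i => y i ≫ a) Finset.univ

end Main

end Fermat.Agent.JAC.Prop.AbsRepProps27
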