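import Mathlib
import Fermat.Agent.JAC.Prop.AbsRepProps27

/-!
# JAC / B6.5 variants with smoothness as a hypothesis

The same end theorems as `Assembly27.properties_of_group_scheme`,
`JacobianProps27.jacobian_properties`, `AbsRepProps27.absRep_properties`, but with `[Smooth π]`
as an input (e.g. obtained from formally smooth chart rings through `Charts27.smooth_of_charts`
or `Repr.Jacobian10.toBase_of_charts`) instead of the infinitesimal lifting property.
-/

set_option autoImplicit false

universe u

open CategoryTheory Limits AlgebraicGeometry MonoidalCategory CartesianMonoidalCategory MonObj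

namespace Fermat.Agent.JAC.Prop.SmoothGroup27

open Fermat.Agent.JAC.Prop Fermat.Agent.JAC.Prop.PowerCurve27 Fermat.Agent.JAC.Grp
  Fermat.Agent.JAC.Grp.AbsOver6 Fermat.Agent.JAC.Prop.JacobianProps27

section Abstract

variable {k : Type u} [Field k] {J : Scheme.{u}} (π : J ⟶ Spec (.of k))

/-- Abstract form. -/
theorem properties_of_smooth_group_scheme [Smooth π] [GrpObj (Over.mk π)]
    {W : Scheme.{u}} (σ : W ⟶ J) [Surjective σ] [IsProper (σ ≫ π)]
    [GeometricallyIrreducible (σ ≫ π)] :
    IsProper π ∧ GeometricallyConnected π ∧ GeometricallyIntegral π := by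
  have hlfp : LocallyOfFinitePresentation π := inferInstance
  have hlft : LocallyOfFiniteType π := inferInstance
  have hsep : IsSeparated π := GrpSep27.isSeparated_of_grpObj_mk π
  have hprop : IsProper π := ImageProps27.isProper_of_comp_surjective σ π
  have hirr : GeometricallyIrreducible π :=
    ImageProps27.geometricallyIrreducible_of_comp_surjective σ π
  have hint : GeometricallyIntegral π :=
    SmoothReduced27.geometricallyIntegral_of_smooth_of_geometricallyIrreducible π
  have hconn : GeometricallyConnected π :=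
    PowerCurve27.geometricallyConnected_of_geometricallyIrreducible π
  exact ⟨hprop, hconn, hint⟩

end Abstract

section Curve

variable {k : Type u} [Field k] [IsAlgClosed k] {C : Scheme.{u}} (c : C ⟶ Spec (.of k))
  [IsProper c] [SmoothOfRelativeDimension 1 c] [IsIntegral C]
  {J : Scheme.{u}} (π : J ⟶ Spec (.of k)) [Smooth π]
  [GrpObj (Over.mk π)] [IsCommMonObj (Over.mk π)]

/-- Curve form. -/
theorem jacobian_properties_of_smooth
    (a : Over.mk c ⟶ Over.mk π) (g : ℕ)
    (hG : ∀ (K : Type u) [Field K] [IsAlgClosed K]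
      (t : Spec (CommRingCat.of K) ⟶ Spec (.of k)) (z : Over.mk t ⟶ Over.mk π),
      ∃ y : Fin g → (Over.mk t ⟶ Over.mk c), ∏ i, y i ≫ a = z) :
    IsProper π ∧ GeometricallyConnected π ∧ GeometricallyIntegral π := by
  let W : Over (Spec (.of k)) := fibrePow (Over.mk c) g
  let σ : W ⟶ Over.mk π := SumMap6.sumMap (fibrePowProj (Over.mk c) g) a
  have hsurj : Surjective σ.left :=
    GeomSurj6.surjective_sumMap (fibrePowProj (Over.mk c) g) a
      (fun K _ _ t y => ⟨fibrePowLift (Over.mk c) g y, fibrePowLift_proj (Over.mk c) g y⟩) hG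
  have hw : σ.left ≫ π = W.hom := Over.w σ
  obtain ⟨hprop, -, hint⟩ := curve_fibrePow c g
  have h1 : IsProper (σ.left ≫ π) := by rw [hw]; exact hprop
  have h2 : GeometricallyIrreducible (σ.left ≫ π) := by
    rw [hw]
    have : GeometricallyIntegral W.hom := hint
    infer_instance
  exact properties_of_smooth_group_scheme π σ.left

end Curve

section AbsRepForm

variable {k : Type u} [Field k] [IsAlgClosed k] {J : Scheme.{u}} {F : CommRingCat.{u} ⥤ Type u}
  (r : AbsRep (CommRingCat.of k) J F)
  [grp : ∀ (B : CommRingCat.{u}) (φ : CommRingCat.of k ⟶ B), CommGroup (r.Fib B φ)]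
  (map_mul : ∀ {B B' : CommRingCat.{u}} (ψ : B ⟶ B') {φ : CommRingCat.of k ⟶ B}
    {φ' : CommRingCat.of k ⟶ B'} (h : φ ≫ ψ = φ') (x y : r.Fib B φ),
    r.mapFib ψ h (x * y) = r.mapFib ψ h x * r.mapFib ψ h y)
  {C : Scheme.{u}} (c : C ⟶ Spec (.of k)) [IsProper c]
  [SmoothOfRelativeDimension 1 c] [IsIntegral C]

include map_mul in
/-- Functor-of-points form. -/
theorem absRep_properties_of_smooth [Smooth r.toBase]
    (a : Over.mk c ⟶ r.overBase) (g : ℕ)
    (hG : ∀ (K : Type u) [Field K] [IsAlgClosed K]
      (t : Spec (CommRingCat.of K) ⟶ Spec (.of k))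
      (z : r.Fib (CommRingCat.of K) (Spec.preimage t)),
      ∃ y : Fin g → (Over.mk t ⟶ Over.mk c), ∏ i, r.ptsEquiv t (y i ≫ a) = z) :
    IsProper r.toBase ∧ GeometricallyConnected r.toBase ∧ GeometricallyIntegral r.toBase := by
  let _ := AbsRepProps27.grpObjOfComm r map_mul
  have := AbsRepProps27.isCommMonObj_ofComm r map_mul
  refine jacobian_properties_of_smooth c r.toBase a g fun K _ _ t z => ?_
  obtain ⟨y, hy⟩ := hG K t (r.ptsEquiv t z)
  refine ⟨y, (r.ptsEquiv t).injective ?_⟩
  rw [← hy]
  exact map_prod (AbsRepProps27.ptsMonoidHom r map_mul t) (fun i => y i ≫ a) Finset.univ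

end AbsRepForm

end Fermat.Agent.JAC.Prop.SmoothGroup27
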